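import Mathlib
import Fermat.Agent.LT.T1.Spec
import Fermat.Agent.LT.T5.Spec

/-!
# Row LT, tower T5, leaf T5.06 (helper599): the discrete group `GL₂(K) × ⟨r⟩`

OFF-MAIN.  Algebra and topology of the group `GL₂(K) × ℤ` acting on `GL₂(𝔸_K)` by
`(γ, n) • z = γ z rⁿ` (`r` the generator of the discrete central ray):

* `ray_commute599`     : `r` is central;
* `nrm599`             : `‖det g‖_𝔸`, multiplicative, `= 1` on `GL₂(K)`, `= 2` at `r`;
* `iota599`            : the homomorphism `(γ, n) ↦ γ rⁿ`;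
* `existsUnique_iota_mul_mem599` : every `z` has a unique translate in the fundamental domain;
* `finite_iota_mem599` : only finitely many `γ rⁿ` lie in a compact set.

Inputs from T1 (hypotheses): `T1.AdNormC K`, `T1.DiscreteC K`.
-/

set_option autoImplicit false

open IsDedekindDomain NumberField MeasureTheory
open scoped MatrixGroups

noncomputable section

namespace Fermat.Agent.LT.T5.H599

open Fermat.Agent.LT.H556.A0 Fermat.Agent.LT.T5

attribute [local instance] Fermat.Agent.LT.T5.instMeasurableSpaceG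

variable {K : Type} [Field K] [NumberField K]

/-! ## Countability -/

/-- A number field is countable. -/
theorem countable_field599 (K : Type) [Field K] [NumberField K] : Countable K :=
  (Module.finBasis ℚ K).equivFun.toEquiv.injective.countable

/-- `GL₂(K)` is countable. -/
theorem countable_gl599 (K : Type) [Field K] [NumberField K] : Countable (GL (Fin 2) K) := by
  have := countable_field599 K
  have : Countable (Matrix (Fin 2) (Fin 2) K) := by
    unfold Matrix; infer_instance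
  exact (Units.val_injective (α := Matrix (Fin 2) (Fin 2) K)).countable

/-! ## The ray generator is a scalar matrix -/

/-- Extensionality for adeles through the component homomorphisms. -/
theorem adl_ext599 {x y : Adl K} (h1 : ∀ w : InfinitePlace K, infHom w x = infHom w y)
    (h2 : ∀ v : HeightOneSpectrum (𝓞 K), finHom v x = finHom v y) : x = y := by
  refine Prod.ext (funext fun w => ?_) (RestrictedProduct.ext _ _ fun v => ?_)
  · exact (InfinitePlace.Completion.extensionEmbedding w).injective (h1 w)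
  · exact h2 v

/-- The entries of a ray generator: off-diagonal entries vanish and the diagonal entries agree. -/
theorem ray_entries599 {r : G K} (hr : IsRayGen r) :
    (r : Matrix (Fin 2) (Fin 2) (Adl K)) 0 1 = 0 ∧ (r : Matrix (Fin 2) (Fin 2) (Adl K)) 1 0 = 0 ∧
      (r : Matrix (Fin 2) (Fin 2) (Adl K)) 0 0 = (r : Matrix (Fin 2) (Fin 2) (Adl K)) 1 1 := by
  obtain ⟨hfin, t, _, _, hinf⟩ := hr
  have hf : ∀ (v : HeightOneSpectrum (𝓞 K)) (i j : Fin 2),
      finHom v ((r : Matrix (Fin 2) (Fin 2) (Adl K)) i j)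
        = (1 : Matrix (Fin 2) (Fin 2) (v.adicCompletion K)) i j := by
    intro v i j
    have h : finComp v r = 1 := hfin v
    rw [finComp_eq_map] at h
    exact congrFun (congrFun h i) j
  have hi : ∀ (w : InfinitePlace K) (i j : Fin 2),
      infHom w ((r : Matrix (Fin 2) (Fin 2) (Adl K)) i j)
        = (Matrix.diagonal (fun _ : Fin 2 => (t : ℂ))) i j := by
    intro w i j
    have h := hinf w
    rw [infComp_eq_map] at h
    exact congrFun (congrFun h i) j
  refine ⟨adl_ext599 (fun w => ?_) (fun v => ?_), adl_ext599 (fun w => ?_) (fun v => ?_),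
    adl_ext599 (fun w => ?_) (fun v => ?_)⟩
  · rw [hi w 0 1, map_zero]; simp
  · rw [hf v 0 1, map_zero]; simp
  · rw [hi w 1 0, map_zero]; simp
  · rw [hf v 1 0, map_zero]; simp
  · rw [hi w 0 0, hi w 1 1]; simp
  · rw [hf v 0 0, hf v 1 1]; simp

/-- A ray generator is a scalar matrix. -/
theorem ray_eq_diagonal599 {r : G K} (hr : IsRayGen r) :
    (r : Matrix (Fin 2) (Fin 2) (Adl K))
      = Matrix.diagonal (fun _ => (r : Matrix (Fin 2) (Fin 2) (Adl K)) 0 0) := by
  obtain ⟨h01, h10, h00⟩ := ray_entries599 hr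
  ext i j
  fin_cases i <;> fin_cases j
  · simp
  · simpa using h01
  · simpa using h10
  · simpa using h00.symm

/-- A ray generator is central. -/
theorem ray_commute599 {r : G K} (hr : IsRayGen r) (g : G K) : r * g = g * r := by
  apply Units.ext
  rw [Units.val_mul, Units.val_mul, ray_eq_diagonal599 hr]
  ext i j
  simp [Matrix.diagonal_mul, Matrix.mul_diagonal, mul_comm]

/-! ## The module of the determinant -/

/-- `‖det g‖_𝔸`. -/
def nrm599 (g : G K) : ℝ := adNorm (Matrix.det (g : Matrix (Fin 2) (Fin 2) (Adl K)))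

theorem mem_slab_iff599 (g : G K) : g ∈ slab K ↔ 1 ≤ nrm599 g ∧ nrm599 g < 2 := Iff.rfl

theorem nrm_eq599 (g : G K) :
    nrm599 g = T1.adNorm K ((Matrix.GeneralLinearGroup.det g : (Adl K)ˣ) : Adl K) := rfl

theorem nrm_pos599 (hAN : T1.AdNormC K) (g : G K) : 0 < nrm599 g := by
  rw [nrm_eq599]
  exact hAN.1 (Matrix.GeneralLinearGroup.det g)

theorem nrm_mul599 (hAN : T1.AdNormC K) (g h : G K) :
    nrm599 (g * h) = nrm599 g * nrm599 h := by
  rw [nrm_eq599, nrm_eq599, nrm_eq599, map_mul]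
  exact hAN.2.1 (Matrix.GeneralLinearGroup.det g) (Matrix.GeneralLinearGroup.det h)

theorem nrm_one599 (hAN : T1.AdNormC K) : nrm599 (1 : G K) = 1 := by
  have h := nrm_mul599 hAN 1 1
  rw [mul_one] at h
  have hp := nrm_pos599 hAN (1 : G K)
  have h2 : nrm599 (1 : G K) * (nrm599 (1 : G K) - 1) = 0 := by linarith
  rcases mul_eq_zero.1 h2 with h3 | h3
  · exact absurd h3 hp.ne'
  · linarith

/-- `‖det ·‖_𝔸` as a monoid homomorphism. -/
def nrmHom599 (hAN : T1.AdNormC K) : G K →* ℝ where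
  toFun := nrm599
  map_one' := nrm_one599 hAN
  map_mul' := nrm_mul599 hAN

theorem nrm_zpow599 (hAN : T1.AdNormC K) (g : G K) (n : ℤ) :
    nrm599 (g ^ n) = nrm599 g ^ n :=
  map_zpow (nrmHom599 hAN) g n

theorem nrm_rat599 (hAN : T1.AdNormC K) (γ : GL (Fin 2) K) : nrm599 (ratG γ) = 1 := by
  rw [nrm_eq599]
  have h : Matrix.GeneralLinearGroup.det (ratG γ)
      = T1.ratUnit K (Matrix.GeneralLinearGroup.det γ) := by
    unfold ratG
    rw [Matrix.GeneralLinearGroup.map_det]
    rfl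
  rw [h]
  exact hAN.2.2.1 (Matrix.GeneralLinearGroup.det γ)

theorem continuous_nrm599 (hAN : T1.AdNormC K) : Continuous (nrm599 : G K → ℝ) := by
  have h : (nrm599 : G K → ℝ)
      = (fun x : (Adl K)ˣ => T1.adNorm K (x : Adl K)) ∘
          (Matrix.GeneralLinearGroup.det : G K → (Adl K)ˣ) := funext nrm_eq599
  rw [h]
  exact hAN.2.2.2.comp Matrix.GeneralLinearGroup.continuous_det

theorem norm_inf599 (x : Adl K) (w : InfinitePlace K) : ‖x.1 w‖ = ‖infHom w x‖ :=
  ((InfinitePlace.Completion.isometry_extensionEmbedding w).norm_map_of_map_zero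
    (map_zero _) _).symm

theorem nrm_ray599 {r : G K} (hr : IsRayGen r) : nrm599 r = 2 := by
  obtain ⟨h01, h10, h00⟩ := ray_entries599 hr
  obtain ⟨hfin, t, ht, ht2, hinf⟩ := hr
  have hf : ∀ v : HeightOneSpectrum (𝓞 K),
      finHom v ((r : Matrix (Fin 2) (Fin 2) (Adl K)) 0 0) = 1 := by
    intro v
    have h : finComp v r = 1 := hfin v
    rw [finComp_eq_map] at h
    have := congrFun (congrFun h 0) 0
    simpa using this
  have hi : ∀ w : InfinitePlace K,
      infHom w ((r : Matrix (Fin 2) (Fin 2) (Adl K)) 0 0) = (t : ℂ) := by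
    intro w
    have h := hinf w
    rw [infComp_eq_map] at h
    have := congrFun (congrFun h 0) 0
    simpa using this
  have hdet : Matrix.det (r : Matrix (Fin 2) (Fin 2) (Adl K))
      = (r : Matrix (Fin 2) (Fin 2) (Adl K)) 0 0 * (r : Matrix (Fin 2) (Fin 2) (Adl K)) 0 0 := by
    rw [Matrix.det_fin_two, h01, ← h00]
    simp
  unfold nrm599 adNorm
  rw [hdet]
  set c := (r : Matrix (Fin 2) (Fin 2) (Adl K)) 0 0 with hc
  have hfinpart : ∀ v : HeightOneSpectrum (𝓞 K), ‖(c * c).2 v‖ = 1 := by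
    intro v
    have : (c * c).2 v = finHom v (c * c) := rfl
    rw [this, map_mul, hf v, mul_one, norm_one]
  have hinfpart : ∀ w : InfinitePlace K, ‖(c * c).1 w‖ = t * t := by
    intro w
    rw [norm_inf599, map_mul, hi w, norm_mul]
    simp [abs_of_pos ht]
  simp only [hfinpart, hinfpart, finprod_one, mul_one]
  rw [Finset.prod_pow_eq_pow_sum, InfinitePlace.sum_mult_eq, ← pow_two, ← pow_mul]
  exact ht2

/-! ## The homomorphism `(γ, n) ↦ γ rⁿ` -/

/-- The index group `GL₂(K) × ℤ`. -/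
abbrev Gam599 (K : Type) [Field K] [NumberField K] : Type := GL (Fin 2) K × Multiplicative ℤ

theorem countable_gam599 (K : Type) [Field K] [NumberField K] : Countable (Gam599 K) := by
  have := countable_gl599 K
  infer_instance

/-- The homomorphism `(γ, n) ↦ γ rⁿ` (`r` central). -/
def iota599 {r : G K} (hr : IsRayGen r) : Gam599 K →* G K :=
  MonoidHom.noncommCoprod ratG (zpowersHom (G K) r) (fun γ n => by
    have h : Commute r (ratG γ) := ray_commute599 hr (ratG γ)
    exact (h.zpow_left (Multiplicative.toAdd n)).symm)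

theorem iota_apply599 {r : G K} (hr : IsRayGen r) (p : Gam599 K) :
    iota599 hr p = ratG p.1 * r ^ (Multiplicative.toAdd p.2) := rfl

theorem iota_mk599 {r : G K} (hr : IsRayGen r) (γ : GL (Fin 2) K) (n : ℤ) :
    iota599 hr (γ, Multiplicative.ofAdd n) = ratG γ * r ^ n := rfl

theorem zpow_commute599 {r : G K} (hr : IsRayGen r) (n : ℤ) (g : G K) :
    r ^ n * g = g * r ^ n :=
  ((show Commute r g from ray_commute599 hr g).zpow_left n)

theorem nrm_iota599 (hAN : T1.AdNormC K) {r : G K} (hr : IsRayGen r) (p : Gam599 K) :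
    nrm599 (iota599 hr p) = 2 ^ (Multiplicative.toAdd p.2) := by
  rw [iota_apply599, nrm_mul599 hAN, nrm_rat599 hAN, one_mul, nrm_zpow599 hAN, nrm_ray599 hr]

theorem ratG_injective599 : Function.Injective (ratG : GL (Fin 2) K → G K) := by
  intro γ γ' h
  apply Matrix.GeneralLinearGroup.ext
  intro i j
  have h1 : (ratG γ : Matrix (Fin 2) (Fin 2) (Adl K)) i j
      = (ratG γ' : Matrix (Fin 2) (Fin 2) (Adl K)) i j := by rw [h]
  unfold ratG at h1
  rw [Matrix.GeneralLinearGroup.map_apply, Matrix.GeneralLinearGroup.map_apply] at h1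
  exact AdeleRing.algebraMap_injective (𝓞 K) K h1

/-- Comparison of two powers of `2` which both move `a > 0` into `[1, 2)`. -/
theorem zpow_slab_unique599 {a : ℝ} (ha : 0 < a) {m n : ℤ}
    (hm : 1 ≤ (2 : ℝ) ^ m * a ∧ (2 : ℝ) ^ m * a < 2)
    (hn : 1 ≤ (2 : ℝ) ^ n * a ∧ (2 : ℝ) ^ n * a < 2) : m = n := by
  have key : ∀ {m n : ℤ}, 1 ≤ (2 : ℝ) ^ m * a → (2 : ℝ) ^ n * a < 2 → n ≤ m := by
    intro m n h1 h2
    have h3 : (2 : ℝ) ^ n * a < (2 : ℝ) ^ (m + 1) * a := by
      rw [zpow_add_one₀ (by norm_num : (2 : ℝ) ≠ 0)]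
      nlinarith
    have h4 : (2 : ℝ) ^ n < (2 : ℝ) ^ (m + 1) := lt_of_mul_lt_mul_right h3 ha.le
    have h5 : n < m + 1 := (zpow_lt_zpow_iff_right₀ (by norm_num : (1 : ℝ) < 2)).1 h4
    omega
  exact le_antisymm (key hn.1 hm.2) (key hm.1 hn.2)

/-- Every `z` has exactly one translate `γ z rⁿ` in the fundamental domain. -/
theorem existsUnique_iota_mul_mem599 (hAN : T1.AdNormC K) {μ : Measure (G K)} {F : Set (G K)}
    (hF : IsFrame μ F) {r : G K} (hr : IsRayGen r) (z : G K) :
    ∃! p : Gam599 K, iota599 hr p * z ∈ F := by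
  have hz := nrm_pos599 hAN z
  obtain ⟨n, hn1, hn2⟩ := exists_mem_Ico_zpow hz (by norm_num : (1 : ℝ) < 2)
  have h2 : (0 : ℝ) < 2 := by norm_num
  have hslab : r ^ (-n) * z ∈ slab K := by
    rw [mem_slab_iff599, nrm_mul599 hAN, nrm_zpow599 hAN, nrm_ray599 hr, zpow_neg]
    have hpos : (0 : ℝ) < 2 ^ n := zpow_pos h2 n
    constructor
    · rw [inv_mul_eq_div, le_div_iff₀ hpos]
      simpa using hn1
    · rw [inv_mul_eq_div, div_lt_iff₀ hpos]
      rw [zpow_add_one₀ h2.ne'] at hn2
      linarith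
  obtain ⟨γ, hγ, hγu⟩ := hF.strict _ hslab
  have hnrm : ∀ p : Gam599 K, nrm599 (iota599 hr p * z)
      = 2 ^ (Multiplicative.toAdd p.2) * nrm599 z := by
    intro p
    rw [nrm_mul599 hAN, nrm_iota599 hAN]
  refine ⟨(γ, Multiplicative.ofAdd (-n)), ?_, ?_⟩
  · show iota599 hr (γ, Multiplicative.ofAdd (-n)) * z ∈ F
    rw [iota_mk599, mul_assoc]
    exact hγ
  · rintro ⟨γ', n'⟩ hp
    have hp' : iota599 hr (γ', n') * z ∈ F := hp
    have hs1 := (mem_slab_iff599 _).1 (hF.sub hp')
    rw [hnrm] at hs1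
    have hs2 := (mem_slab_iff599 _).1 hslab
    rw [nrm_mul599 hAN, nrm_zpow599 hAN, nrm_ray599 hr] at hs2
    have hnn : Multiplicative.toAdd n' = -n := zpow_slab_unique599 hz hs1 hs2
    have hn' : n' = Multiplicative.ofAdd (-n) := by
      rw [← hnn]; rfl
    subst hn'
    have hγ' : ratG γ' * (r ^ (-n) * z) ∈ F := by
      rw [← mul_assoc, ← iota_mk599 hr]
      exact hp'
    rw [hγu γ' hγ']

/-! ## Local finiteness -/

/-- Only finitely many integers `n` have `2ⁿ` in a given interval `[a, b]`, `a > 0`. -/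
theorem finite_zpow_mem599 {a b : ℝ} (ha : 0 < a) :
    {n : ℤ | a ≤ (2 : ℝ) ^ n ∧ (2 : ℝ) ^ n ≤ b}.Finite := by
  obtain ⟨k, hk⟩ := pow_unbounded_of_one_lt b (by norm_num : (1 : ℝ) < 2)
  obtain ⟨k', hk'⟩ := exists_pow_lt_of_lt_one ha (by norm_num : (1 / 2 : ℝ) < 1)
  refine (Set.finite_Icc (-(k' : ℤ)) (k : ℤ)).subset ?_
  rintro n ⟨h1, h2⟩
  have h12 : (1 : ℝ) < 2 := by norm_num
  constructor
  · have h3 : (2 : ℝ) ^ (-(k' : ℤ)) < (2 : ℝ) ^ n := by
      refine lt_of_lt_of_le ?_ h1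
      rw [zpow_neg, zpow_natCast, ← inv_pow]
      simpa using hk'
    exact ((zpow_lt_zpow_iff_right₀ h12).1 h3).le
  · have h3 : (2 : ℝ) ^ n < (2 : ℝ) ^ (k : ℤ) := by
      refine lt_of_le_of_lt h2 ?_
      rw [zpow_natCast]
      exact hk
    exact ((zpow_lt_zpow_iff_right₀ h12).1 h3).le

/-- Only finitely many elements of `GL₂(K)` lie in a compact set. -/
theorem finite_ratG_mem599 (hD : T1.DiscreteC K) {C : Set (G K)} (hC : IsCompact C) :
    {γ : GL (Fin 2) K | ratG γ ∈ C}.Finite := by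
  obtain ⟨hdisc, hclosed⟩ := hD
  have hd : IsDiscrete ((T1.Gam K : Subgroup (G K)) : Set (G K)) :=
    SetLike.isDiscrete_iff_discreteTopology.2 hdisc
  have hfin : (C ∩ (T1.Gam K : Set (G K))).Finite :=
    (hC.inter_right hclosed).finite (hd.mono Set.inter_subset_right)
  refine (hfin.preimage (ratG_injective599 (K := K)).injOn).subset ?_
  intro γ hγ
  exact ⟨hγ, ⟨γ, rfl⟩⟩

/-- **Local finiteness**: only finitely many `γ rⁿ` lie in a compact set. -/
theorem finite_iota_mem599 (hAN : T1.AdNormC K) (hD : T1.DiscreteC K) {r : G K}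
    (hr : IsRayGen r) {C : Set (G K)} (hC : IsCompact C) :
    {p : Gam599 K | iota599 hr p ∈ C}.Finite := by
  rcases C.eq_empty_or_nonempty with rfl | hne
  · simp
  obtain ⟨x₀, hx₀, hmin⟩ := hC.exists_isMinOn hne (continuous_nrm599 hAN).continuousOn
  obtain ⟨x₁, hx₁, hmax⟩ := hC.exists_isMaxOn hne (continuous_nrm599 hAN).continuousOn
  have hS := finite_zpow_mem599 (a := nrm599 x₀) (b := nrm599 x₁) (nrm_pos599 hAN x₀)
  have hγ : ∀ n : ℤ, {γ : GL (Fin 2) K | ratG γ ∈ (fun g => g * r ^ (-n)) '' C}.Finite :=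
    fun n => finite_ratG_mem599 hD (hC.image (continuous_mul_const _))
  refine (hS.biUnion (fun n _ => (hγ n).prod
    (Set.finite_singleton (Multiplicative.ofAdd n)))).subset ?_
  rintro ⟨γ, n⟩ hp
  have hp' : iota599 hr (γ, n) ∈ C := hp
  have hn := nrm_iota599 hAN hr (γ, n)
  simp only [Set.mem_iUnion, Set.mem_prod, Set.mem_ofPred_eq, Set.mem_singleton_iff]
  refine ⟨Multiplicative.toAdd n, ⟨?_, ?_⟩, ?_, rfl⟩
  · rw [← hn]; exact hmin hp'
  · rw [← hn]; exact hmax hp'
  · refine ⟨iota599 hr (γ, n), hp', ?_⟩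
    show iota599 hr (γ, n) * r ^ (-(Multiplicative.toAdd n)) = ratG γ
    rw [iota_apply599, mul_assoc, ← zpow_add]
    simp

end Fermat.Agent.LT.T5.H599

end
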