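import Mathlib
import Fermat.Agent.LT.T5.H599.Ray

/-!
# Row LT, tower T5, leaf T5.06 `LeafDiag` (helper599)

OFF-MAIN.  Composition of kernels on the diagonal:
`∑_δ (φ₁ ⋆ φ₂)♭(x⁻¹ δ σ(x)) = ∫_F K_{φ₁}(x,z) K^σ_{φ₂}(z,x) dz` for every `x`.

`leafDiag_of599 : T1.AdNormC K → T1.DiscreteC K → T5.LeafDiag s 𝔫 τ` (Spec v3 = FREEZE,
sha256 d6f8b00a; the two hypotheses are interface Props of tower T1, both closed by T1;
the `K_∞`-type `τ` and the invariance properties of the test functions play no role).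

Proof: the countable group `GL₂(K) × ℤ` acts on `GL₂(𝔸_K)` by `(γ, n) • z = γ rⁿ z`
(`r` central), `F` is a strict fundamental domain for this action, the kernel sums are locally
finite (`finite_iota_mem599`), and Mathlib's unfolding for fundamental domains
(`IsFundamentalDomain.integral_eq_tsum''`) does the rest.
-/

set_option autoImplicit false

open IsDedekindDomain NumberField MeasureTheory
open scoped MatrixGroups Pointwise

noncomputable section

namespace Fermat.Agent.LT.T5.H599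

open Fermat.Agent.LT.H556.A0 Fermat.Agent.LT.T5

attribute [local instance] Fermat.Agent.LT.T5.instMeasurableSpaceG

variable {K : Type} [Field K] [NumberField K]

/-- The σ-algebra of the tower is the Borel σ-algebra. -/
theorem borelSpaceG599 (K : Type) [Field K] [NumberField K] : BorelSpace (G K) := ⟨rfl⟩

attribute [local instance] borelSpaceG599

/-! ## Locally finite sums over `GL₂(K) × ℤ` -/

/-- The summand `p ↦ f (a · γ rⁿ · b)` has finite support when `f` vanishes off a compact set. -/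
theorem finite_support599 (hAN : T1.AdNormC K) (hD : T1.DiscreteC K) {r : G K}
    (hr : IsRayGen r) {f : G K → ℂ} {C : Set (G K)} (hC : IsCompact C)
    (hf : ∀ g, f g ≠ 0 → g ∈ C) (a b : G K) :
    (Function.support fun p : Gam599 K => f (a * iota599 hr p * b)).Finite := by
  have hC' : IsCompact ((fun g => a⁻¹ * g * b⁻¹) '' C) :=
    hC.image ((continuous_const_mul a⁻¹).mul continuous_const)
  refine (finite_iota_mem599 hAN hD hr hC').subset ?_
  intro p hp
  refine ⟨a * iota599 hr p * b, hf _ hp, ?_⟩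
  simp [mul_assoc]

/-- The nested sum over `GL₂(K)` and the ray is the sum over `GL₂(K) × ℤ`. -/
theorem tsum_flat_eq599 (hAN : T1.AdNormC K) (hD : T1.DiscreteC K) {r : G K}
    (hr : IsRayGen r) {f : G K → ℂ} {C : Set (G K)} (hC : IsCompact C)
    (hf : ∀ g, f g ≠ 0 → g ∈ C) (a b : G K) :
    (∑' δ : GL (Fin 2) K, flat r f (a * ratG δ * b))
      = ∑' p : Gam599 K, f (a * iota599 hr p * b) := by
  have hfin := finite_support599 hAN hD hr hC hf a b
  have hsum : Summable (fun p : Gam599 K => f (a * iota599 hr p * b)) :=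
    summable_of_hasFiniteSupport hfin
  rw [hsum.tsum_prod]
  refine tsum_congr fun δ => ?_
  unfold flat
  rw [← Equiv.tsum_eq Multiplicative.ofAdd
    (fun c : Multiplicative ℤ => f (a * iota599 hr (δ, c) * b))]
  refine tsum_congr fun m => ?_
  have e : a * ratG δ * b * r ^ m = a * (ratG δ * r ^ m) * b := by
    rw [mul_assoc (a * ratG δ) b (r ^ m), ← zpow_commute599 hr m b]
    simp only [mul_assoc]
  rw [iota_mk599, e]

/-! ## The convolution -/

/-- The convolution vanishes off the product of the supports. -/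
theorem conv_ne_zero599 (μ : Measure (G K)) (φ₁ φ₂ : G K → ℂ) (g : G K)
    (h : conv μ φ₁ φ₂ g ≠ 0) : g ∈ tsupport φ₁ * tsupport φ₂ := by
  by_contra hg
  apply h
  unfold conv
  have h0 : ∀ y : G K, φ₁ y * φ₂ (y⁻¹ * g) = 0 := by
    intro y
    by_contra hy
    have h1 : φ₁ y ≠ 0 := fun h1 => hy (by rw [h1, zero_mul])
    have h2 : φ₂ (y⁻¹ * g) ≠ 0 := fun h2 => hy (by rw [h2, mul_zero])
    apply hg
    refine ⟨y, subset_tsupport _ h1, y⁻¹ * g, subset_tsupport _ h2, ?_⟩
    simp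
  simp [h0]

/-- Left translation in the convolution integral. -/
theorem conv_shift599 (μ : Measure (G K)) [μ.IsMulLeftInvariant] (φ₁ φ₂ : G K → ℂ)
    (x g : G K) :
    conv μ φ₁ φ₂ (x⁻¹ * g) = ∫ z, φ₁ (x⁻¹ * z) * φ₂ (z⁻¹ * g) ∂μ := by
  unfold conv
  rw [← integral_mul_left_eq_self (fun y => φ₁ y * φ₂ (y⁻¹ * (x⁻¹ * g))) x⁻¹]
  refine integral_congr_ae (Filter.Eventually.of_forall fun z => ?_)
  simp [mul_assoc]

/-! ## The action and the unfolding -/

/-- The action `(γ, n) • z = γ rⁿ z` of `GL₂(K) × ℤ` on `GL₂(𝔸_K)`. -/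
@[reducible] def act599 {r : G K} (hr : IsRayGen r) : MulAction (Gam599 K) (G K) :=
  MulAction.compHom (G K) (iota599 hr)

/-- `F` is a fundamental domain for `GL₂(K) × ℤ`. -/
theorem isFundamentalDomain599 (hAN : T1.AdNormC K) {μ : Measure (G K)} {F : Set (G K)}
    (hF : IsFrame μ F) {r : G K} (hr : IsRayGen r) :
    @IsFundamentalDomain (Gam599 K) (G K) _ (act599 hr).toSMul _ F μ :=
  letI := act599 hr
  IsFundamentalDomain.mk' hF.meas.nullMeasurableSet
    (fun z => existsUnique_iota_mul_mem599 hAN hF hr z)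

theorem measurableConstSMul599 {r : G K} (hr : IsRayGen r) :
    @MeasurableConstSMul (Gam599 K) (G K) (act599 hr).toSMul _ :=
  letI := act599 hr
  ⟨fun c => (continuous_const_mul (iota599 hr c)).measurable⟩

theorem smulInvariantMeasure599 (μ : Measure (G K)) [μ.IsMulLeftInvariant] {r : G K}
    (hr : IsRayGen r) :
    @SMulInvariantMeasure (Gam599 K) (G K) (act599 hr).toSMul _ μ :=
  letI := act599 hr
  ⟨fun c _ _ => measure_preimage_mul μ (iota599 hr c) _⟩

/-- Unfolding of an integral over `GL₂(𝔸_K)`. -/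
theorem integral_unfold599 (hAN : T1.AdNormC K) {μ : Measure (G K)} {F : Set (G K)}
    (hF : IsFrame μ F) {r : G K} (hr : IsRayGen r) (h : G K → ℂ) (hh : Integrable h μ) :
    ∫ z, h z ∂μ = ∑' p : Gam599 K, ∫ z in F, h (iota599 hr p * z) ∂μ := by
  have := hF.haar
  have := countable_gam599 K
  let _ := act599 hr
  have := measurableConstSMul599 hr
  have := smulInvariantMeasure599 μ hr
  exact (isFundamentalDomain599 hAN hF hr).integral_eq_tsum'' h hh

/-- Unfolding of a lower integral over `GL₂(𝔸_K)`. -/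
theorem lintegral_unfold599 (hAN : T1.AdNormC K) {μ : Measure (G K)} {F : Set (G K)}
    (hF : IsFrame μ F) {r : G K} (hr : IsRayGen r) (f : G K → ENNReal) :
    ∫⁻ z, f z ∂μ = ∑' p : Gam599 K, ∫⁻ z in F, f (iota599 hr p * z) ∂μ := by
  have := hF.haar
  have := countable_gam599 K
  let _ := act599 hr
  have := measurableConstSMul599 hr
  have := smulInvariantMeasure599 μ hr
  exact (isFundamentalDomain599 hAN hF hr).lintegral_eq_tsum'' f

/-! ## The identity -/

/-- **The core identity**, for an arbitrary second point `y` (the leaf is the case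
`y = σ(x)`):
`∑_δ (φ₁ ⋆ φ₂)♭(x⁻¹ δ y) = ∫_F K_{φ₁}(x,z) ∑_δ φ₂♭(z⁻¹ δ y) dz`. -/
theorem diag_core599 (hAN : T1.AdNormC K) (hD : T1.DiscreteC K)
    {μ : Measure (G K)} {F : Set (G K)} (hF : IsFrame μ F) {r : G K} (hr : IsRayGen r)
    {φ₁ φ₂ : G K → ℂ} (c₁ : Continuous φ₁) (s₁ : HasCompactSupport φ₁)
    (c₂ : Continuous φ₂) (s₂ : HasCompactSupport φ₂) (x y : G K) :
    (∑' δ : GL (Fin 2) K, flat r (conv μ φ₁ φ₂) (x⁻¹ * ratG δ * y))
      = ∫ z in F, ker0 r φ₁ x z *
          (∑' δ : GL (Fin 2) K, flat r φ₂ (z⁻¹ * ratG δ * y)) ∂μ := by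
  have := hF.haar
  have := countable_gam599 K
  have hC₁c : IsCompact (tsupport φ₁) := s₁
  have hC₂c : IsCompact (tsupport φ₂) := s₂
  have hCc : IsCompact (tsupport φ₁ * tsupport φ₂) := hC₁c.mul hC₂c
  have hφ₁ : ∀ g, φ₁ g ≠ 0 → g ∈ tsupport φ₁ := fun g hg => subset_tsupport _ hg
  have hφ₂ : ∀ g, φ₂ g ≠ 0 → g ∈ tsupport φ₂ := fun g hg => subset_tsupport _ hg
  -- the summands
  let k : Gam599 K → G K → ℂ := fun p z => φ₁ (x⁻¹ * z) * φ₂ (z⁻¹ * iota599 hr p * y)
  -- the finite set of indices which matter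
  have hP : {p : Gam599 K |
      iota599 hr p ∈ (fun g => x * g * y⁻¹) '' (tsupport φ₁ * tsupport φ₂)}.Finite :=
    finite_iota_mem599 hAN hD hr
      (hCc.image ((continuous_const_mul x).mul continuous_const))
  let P₀ : Finset (Gam599 K) := hP.toFinset
  have hk0 : ∀ p, p ∉ P₀ → ∀ z, k p z = 0 := by
    intro p hp z
    by_contra hne
    apply hp
    have h1 : φ₁ (x⁻¹ * z) ≠ 0 := fun h1 => hne (by simp only [k]; rw [h1, zero_mul])
    have h2 : φ₂ (z⁻¹ * iota599 hr p * y) ≠ 0 :=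
      fun h2 => hne (by simp only [k]; rw [h2, mul_zero])
    rw [Set.Finite.mem_toFinset]
    refine ⟨(x⁻¹ * z) * (z⁻¹ * iota599 hr p * y), ⟨_, hφ₁ _ h1, _, hφ₂ _ h2, rfl⟩, ?_⟩
    simp [mul_assoc]
  have hkc : ∀ p, Continuous (k p) := fun p =>
    (c₁.comp (continuous_const_mul x⁻¹)).mul
      (c₂.comp ((continuous_inv.mul continuous_const).mul continuous_const))
  have hks : ∀ p, HasCompactSupport (k p) := fun p =>
    (s₁.comp_homeomorph (Homeomorph.mulLeft x⁻¹)).mul_right
      (f' := fun z => φ₂ (z⁻¹ * iota599 hr p * y))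
  have hki : ∀ p, Integrable (k p) μ := fun p =>
    (hkc p).integrable_of_hasCompactSupport (hks p)
  -- the unfolded integrand
  let h : G K → ℂ := fun z => ∑ p ∈ P₀, k p z
  have hhi : Integrable h μ := integrable_finsetSum _ (fun p _ => hki p)
  have hhc : Continuous h := continuous_finsetSum _ (fun p _ => hkc p)
  let Φ : G K → ℂ := fun z => ∑' p : Gam599 K, φ₂ (z⁻¹ * iota599 hr p * y)
  have hh : ∀ z, h z = φ₁ (x⁻¹ * z) * Φ z := by
    intro z
    have e1 : ∑' p : Gam599 K, k p z = ∑ p ∈ P₀, k p z :=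
      tsum_eq_sum (fun p hp => hk0 p hp z)
    show ∑ p ∈ P₀, k p z = _
    rw [← e1]
    exact tsum_mul_left
  have hΦinv : ∀ (q : Gam599 K) (z : G K), Φ (iota599 hr q * z) = Φ z := by
    intro q z
    show ∑' p : Gam599 K, φ₂ ((iota599 hr q * z)⁻¹ * iota599 hr p * y)
      = ∑' p : Gam599 K, φ₂ (z⁻¹ * iota599 hr p * y)
    rw [← Equiv.tsum_eq (Equiv.mulLeft q)
      (fun p => φ₂ ((iota599 hr q * z)⁻¹ * iota599 hr p * y))]
    refine tsum_congr fun p => ?_
    simp [mul_assoc]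
  -- the left hand side
  have hL : (∑' δ : GL (Fin 2) K, flat r (conv μ φ₁ φ₂) (x⁻¹ * ratG δ * y))
      = ∫ z, h z ∂μ := by
    rw [tsum_flat_eq599 hAN hD hr hCc (conv_ne_zero599 μ φ₁ φ₂) x⁻¹ y]
    have e : ∀ p : Gam599 K,
        conv μ φ₁ φ₂ (x⁻¹ * iota599 hr p * y) = ∫ z, k p z ∂μ := by
      intro p
      rw [mul_assoc, conv_shift599]
      refine integral_congr_ae (Filter.Eventually.of_forall fun z => ?_)
      simp [k, mul_assoc]
    simp_rw [e]
    rw [tsum_eq_sum (s := P₀) (fun p hp => by simp [hk0 p hp])]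
    rw [integral_finsetSum _ (fun p _ => hki p)]
  -- the right hand side, pointwise
  have hR : ∀ z, ker0 r φ₁ x z * (∑' δ : GL (Fin 2) K, flat r φ₂ (z⁻¹ * ratG δ * y))
      = ∑' q : Gam599 K, h (iota599 hr q * z) := by
    intro z
    unfold ker0
    rw [tsum_flat_eq599 hAN hD hr hC₁c hφ₁ x⁻¹ z, tsum_flat_eq599 hAN hD hr hC₂c hφ₂ z⁻¹ y]
    rw [← tsum_mul_right]
    refine tsum_congr fun q => ?_
    rw [hh, hΦinv, mul_assoc]
  simp_rw [hR]
  rw [hL, integral_unfold599 hAN hF hr h hhi]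
  symm
  apply integral_tsum
  · intro q
    exact (hhc.comp (continuous_const_mul _)).aestronglyMeasurable
  · rw [← lintegral_unfold599 hAN hF hr (fun z => ‖h z‖ₑ)]
    exact hhi.hasFiniteIntegral.ne

/-- **T5.06 `LeafDiag`**, conditional on the interface Props `AdNormC`, `DiscreteC` of tower
T1 (both closed by T1). -/
theorem leafDiag_of599 (s : AdelicAut K) (𝔫 : Ideal (𝓞 K)) (τ : G K → ℂ)
    (hAN : T1.AdNormC K) (hD : T1.DiscreteC K) : LeafDiag s 𝔫 τ := by
  intro μ F r hF hr _ φ₁ φ₂ t₁ t₂ x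
  exact diag_core599 hAN hD hF hr t₁.cont t₁.supp t₂.cont t₂.supp x (s.onG x)

end Fermat.Agent.LT.T5.H599

end
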