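import Mathlib
import Fermat.Agent.LT.T5.H599.Diag
import Fermat.Agent.LT.T1.H309.AdNorm
import Fermat.Agent.LT.T1.H132.DiscreteC

/-!
# Row LT, tower T5, leaf T5.06 `LeafDiag` (helper599): UNCONDITIONAL form

OFF-MAIN.  `leafDiag599 : T5.LeafDiag s 𝔫 τ` (Spec v3 = FREEZE, sha256 d6f8b00a), from `leafDiag_of599` (`Diag.lean`) and the closed
leaves of tower T1 (byte-identical copies from origin/helper54@84501b8a7):
`T1.H309.leafAdNorm309` (helper309) and `T1.H132.discreteC_132` (helper132, over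
`LT/H132/GLDiscrete.lean` and `LT/H767/AdeleDiscrete.lean`).
-/

set_option autoImplicit false

open IsDedekindDomain NumberField

noncomputable section

namespace Fermat.Agent.LT.T5.H599

open Fermat.Agent.LT.H556.A0 Fermat.Agent.LT.T5

variable {K : Type} [Field K] [NumberField K]

/-- **T5.06 `LeafDiag`**, unconditional. -/
theorem leafDiag599 (s : AdelicAut K) (𝔫 : Ideal (𝓞 K)) (τ : G K → ℂ) : LeafDiag s 𝔫 τ :=
  leafDiag_of599 s 𝔫 τ (Fermat.Agent.LT.T1.H309.leafAdNorm309 K)
    (Fermat.Agent.LT.T1.H132.discreteC_132 K)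

end Fermat.Agent.LT.T5.H599

end
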